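/-
S17 / FND leaf E (helper5486) — vendored copy of helper4918's residue-of-a-norm lemma
(`origin/helper4918:Fermat/Agent/S17/FND/NormResidue4918.lean`, verbatim except for the namespace,
which is `Fermat.Agent.S17.FND.E5486` here so that leaf E has no dependency on files in flux).

Let `S` be a Dedekind domain, finite free over a Dedekind domain `R`, `p` a maximal ideal of `R` with
`pS ≠ 0`.  If `b ∈ S` is congruent to `β P ∈ R` modulo each prime `P` of `S` over `p`, then

    N_{S/R}(b) ≡ ∏_{P ∣ p} (β P) ^ (e(P|p) * f(P|p))   (mod p).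

(`norm_sub_prod_mem_4918`).  Mathlib only.
-/
import Mathlib.NumberTheory.RamificationInertia.Basic
import Mathlib.RingTheory.TensorProduct.Quotient
import Mathlib.LinearAlgebra.Charpoly.BaseChange
import Mathlib.LinearAlgebra.Eigenspace.Zero
import Mathlib.LinearAlgebra.Matrix.Block
import Mathlib.LinearAlgebra.StdBasis
import Mathlib.RingTheory.Norm.Defs

set_option autoImplicit false
set_option linter.deprecated false
set_option linter.unusedSectionVars false
set_option linter.style.haveILetI false

namespace Fermat.Agent.S17.FND.E5486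

open Module Ideal UniqueFactorizationMonoid TensorProduct

section linalg

/-- Determinant of a block diagonal matrix with blocks of varying sizes. -/
theorem det_blockDiagonal'_4918 {ι : Type*} [Fintype ι] [DecidableEq ι] {m' : ι → Type*}
    [∀ i, Fintype (m' i)] [∀ i, DecidableEq (m' i)] {R : Type*} [CommRing R]
    (d : ∀ i, Matrix (m' i) (m' i) R) :
    (Matrix.blockDiagonal' d).det = ∏ i, (d i).det := by
  classical
  letI : LinearOrder ι := LinearOrder.lift' (Fintype.equivFin ι) (Fintype.equivFin ι).injective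
  rw [(Matrix.blockTriangular_blockDiagonal' d).det_fintype]
  refine Finset.prod_congr rfl fun k _ => ?_
  rw [Matrix.toSquareBlock_def, ← Matrix.det_reindex_self (Equiv.sigmaSubtype k).symm (d k)]
  congr 1
  ext ⟨⟨i, a⟩, h⟩ ⟨⟨j, b⟩, h'⟩
  dsimp at h h'
  subst h
  subst h'
  simp [Matrix.blockDiagonal'_apply, Equiv.sigmaSubtype]

variable {k : Type*} [Field k]

/-- Determinant of `β • 1 + N`, `N` nilpotent. -/
theorem det_algebraMap_add_nilpotent_4918 {V : Type*} [AddCommGroup V] [Module k V]
    [FiniteDimensional k V] (β : k) {N : Module.End k V} (hN : IsNilpotent N) :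
    LinearMap.det (algebraMap k (Module.End k V) β + N) = β ^ finrank k V := by
  have h1 : IsNilpotent (-N) := hN.neg
  have h2 := LinearMap.eval_charpoly (-N) β
  rw [h1.charpoly_eq_X_pow_finrank] at h2
  simp only [Polynomial.eval_pow, Polynomial.eval_X, sub_neg_eq_add] at h2
  exact h2.symm

/-- Determinant of a diagonal map on a dependent product. -/
theorem det_pi_diag_4918 {ι : Type*} [Fintype ι] [DecidableEq ι] {V : ι → Type*}
    [∀ i, AddCommGroup (V i)] [∀ i, Module k (V i)] [∀ i, FiniteDimensional k (V i)]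
    (f : ∀ i, V i →ₗ[k] V i) :
    LinearMap.det (LinearMap.pi fun i => (f i).comp (LinearMap.proj i) :
        (∀ i, V i) →ₗ[k] (∀ i, V i)) = ∏ i, LinearMap.det (f i) := by
  classical
  let bs : ∀ i, Basis (Free.ChooseBasisIndex k (V i)) k (V i) := fun i => Free.chooseBasis k (V i)
  let B := Pi.basis bs
  rw [← LinearMap.det_toMatrix B]
  have hM : LinearMap.toMatrix B B (LinearMap.pi fun i => (f i).comp (LinearMap.proj i))
      = Matrix.blockDiagonal' fun i => LinearMap.toMatrix (bs i) (bs i) (f i) := by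
    ext ⟨i, a⟩ ⟨j, b⟩
    rw [LinearMap.toMatrix_apply, Pi.basis_repr, Pi.basis_apply, Matrix.blockDiagonal'_apply]
    by_cases h : i = j
    · subst h
      simp [LinearMap.toMatrix_apply]
    · simp [h]
  rw [hM, det_blockDiagonal'_4918]
  exact Finset.prod_congr rfl fun i _ => LinearMap.det_toMatrix (bs i) (f i)

end linalg

section normResidue

attribute [local instance] Ideal.Quotient.field

variable {R S : Type*} [CommRing R] [IsDedekindDomain R] [CommRing S] [IsDedekindDomain S]
  [Algebra R S] [Module.Free R S] [Module.Finite R S] (p : Ideal R) [p.IsMaximal]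

/-- The norm modulo `p` is the product of the determinants of multiplication on the `S ⧸ P ^ e`. -/
theorem mk_norm_eq_prod_det_4918 (hp : map (algebraMap R S) p ≠ ⊥) (b : S) :
    Ideal.Quotient.mk p (Algebra.norm R b) =
      ∏ P : (factors (map (algebraMap R S) p)).toFinset,
        LinearMap.det (Algebra.lmul (R ⧸ p) (S ⧸ (P : Ideal S) ^ ramificationIdx' p P.1)
          (Ideal.Quotient.mk _ b)) := by
  classical
  have h1 : Ideal.Quotient.mk p (Algebra.norm R b) =
      LinearMap.det ((Algebra.lmul R S b).baseChange (R ⧸ p)) := by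
    rw [LinearMap.det_baseChange]; rfl
  let e₁ := (Algebra.TensorProduct.quotIdealMapEquivQuotTensor S p).symm
  let e₂ := Factors.piQuotientLinearEquiv S p hp
  let e := e₁.toLinearEquiv ≪≫ₗ e₂
  let f : ∀ P : (factors (map (algebraMap R S) p)).toFinset,
      (S ⧸ (P : Ideal S) ^ ramificationIdx' p P.1) →ₗ[R ⧸ p]
        (S ⧸ (P : Ideal S) ^ ramificationIdx' p P.1) := fun P =>
    Algebra.lmul (R ⧸ p) (S ⧸ (P : Ideal S) ^ ramificationIdx' p P.1)
      (Ideal.Quotient.mk ((P : Ideal S) ^ ramificationIdx' p P.1) b)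
  let D : (∀ P : (factors (map (algebraMap R S) p)).toFinset,
      S ⧸ (P : Ideal S) ^ ramificationIdx' p P.1) →ₗ[R ⧸ p]
      (∀ P : (factors (map (algebraMap R S) p)).toFinset,
      S ⧸ (P : Ideal S) ^ ramificationIdx' p P.1) :=
    LinearMap.pi fun P => (f P).comp (LinearMap.proj P)
  have key : ∀ s : S, e ((1 : R ⧸ p) ⊗ₜ[R] s) = fun P => Ideal.Quotient.mk _ s := by
    intro s
    show e₂ (e₁ ((1 : R ⧸ p) ⊗ₜ[R] s)) = _
    have : e₁ ((1 : R ⧸ p) ⊗ₜ[R] s) = Ideal.Quotient.mk _ s := by
      rw [AlgEquiv.symm_apply_eq]; rfl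
    rw [this]; rfl
  have hpt : ∀ z, e (((Algebra.lmul R S b).baseChange (R ⧸ p)) z) = D (e z) := by
    intro z
    induction z using TensorProduct.induction_on with
    | zero => simp only [map_zero]
    | add a c ha hc => simp only [map_add, ha, hc]
    | tmul x y =>
      have hx : x ⊗ₜ[R] y = x • ((1 : R ⧸ p) ⊗ₜ[R] y) := by
        rw [TensorProduct.smul_tmul', smul_eq_mul, mul_one]
      have hx' : ((Algebra.lmul R S b).baseChange (R ⧸ p)) (x ⊗ₜ[R] y)
          = x • ((1 : R ⧸ p) ⊗ₜ[R] (b * y)) := by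
        rw [LinearMap.baseChange_tmul, TensorProduct.smul_tmul', smul_eq_mul, mul_one]; rfl
      rw [hx', hx, map_smul, map_smul, map_smul, key, key]
      congr 1
  have h2 : LinearMap.det ((Algebra.lmul R S b).baseChange (R ⧸ p)) = LinearMap.det D := by
    have : D = e.toLinearMap ∘ₗ ((Algebra.lmul R S b).baseChange (R ⧸ p)) ∘ₗ e.symm.toLinearMap := by
      refine LinearMap.ext fun y => ?_
      show D y = e (((Algebra.lmul R S b).baseChange (R ⧸ p)) (e.symm y))
      rw [hpt, e.apply_symm_apply]
    rw [this]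
    exact (LinearMap.det_conj _ e).symm
  rw [h1, h2]
  exact det_pi_diag_4918 f

/-- Multiplication by `b ≡ β (mod P)` on `S ⧸ P ^ e` has determinant `β ^ (e f)`. -/
theorem det_lmul_quotient_pow_4918 (P : (factors (map (algebraMap R S) p)).toFinset) (b : S)
    (β : R) (hβ : b - algebraMap R S β ∈ (P : Ideal S)) :
    LinearMap.det (Algebra.lmul (R ⧸ p) (S ⧸ (P : Ideal S) ^ ramificationIdx' p P.1)
        (Ideal.Quotient.mk _ b)) =
      (Ideal.Quotient.mk p β) ^ (ramificationIdx' p P.1 * inertiaDeg' p (P : Ideal S)) := by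
  have hsplit : Algebra.lmul (R ⧸ p) (S ⧸ (P : Ideal S) ^ ramificationIdx' p P.1)
        (Ideal.Quotient.mk _ b) =
      algebraMap (R ⧸ p) (Module.End (R ⧸ p) (S ⧸ (P : Ideal S) ^ ramificationIdx' p P.1))
          (Ideal.Quotient.mk p β) +
        Algebra.lmul (R ⧸ p) (S ⧸ (P : Ideal S) ^ ramificationIdx' p P.1)
          (Ideal.Quotient.mk _ (b - algebraMap R S β)) := by
    refine LinearMap.ext fun y => ?_
    show Ideal.Quotient.mk ((P : Ideal S) ^ ramificationIdx' p P.1) b * y =
      (Ideal.Quotient.mk p β) • y +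
        Ideal.Quotient.mk ((P : Ideal S) ^ ramificationIdx' p P.1) (b - algebraMap R S β) * y
    rw [Algebra.smul_def, ← add_mul]
    congr 1
    rw [Ideal.Quotient.algebraMap_quotient_pow_ramificationIdx, ← map_add]
    congr 1
    ring
  have hnil : IsNilpotent (Algebra.lmul (R ⧸ p) (S ⧸ (P : Ideal S) ^ ramificationIdx' p P.1)
          (Ideal.Quotient.mk _ (b - algebraMap R S β))) := by
    refine ⟨ramificationIdx' p P.1, ?_⟩
    rw [← map_pow, ← map_pow]
    have : Ideal.Quotient.mk ((P : Ideal S) ^ ramificationIdx' p P.1)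
        ((b - algebraMap R S β) ^ ramificationIdx' p P.1) = 0 :=
      Ideal.Quotient.eq_zero_iff_mem.mpr (Ideal.pow_mem_pow hβ _)
    rw [this, map_zero]
  rw [hsplit, det_algebraMap_add_nilpotent_4918 _ hnil, Factors.finrank_pow_ramificationIdx]

/-- **Residue of a norm.**  If `b ≡ β P (mod P)` for every prime `P` of `S` over `p`, then
`N_{S/R}(b) ≡ ∏_P (β P) ^ (e_P f_P) (mod p)`. -/
theorem norm_sub_prod_mem_4918 (hp : map (algebraMap R S) p ≠ ⊥) (b : S) (β : Ideal S → R)
    (hβ : ∀ P ∈ (factors (map (algebraMap R S) p)).toFinset, b - algebraMap R S (β P) ∈ P) :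
    Algebra.norm R b -
      ∏ P ∈ (factors (map (algebraMap R S) p)).toFinset,
        β P ^ (ramificationIdx' p P * inertiaDeg' p P) ∈ p := by
  classical
  rw [← Ideal.Quotient.eq, mk_norm_eq_prod_det_4918 p hp b, map_prod,
    ← Finset.prod_coe_sort (factors (map (algebraMap R S) p)).toFinset]
  refine Finset.prod_congr rfl fun P _ => ?_
  rw [det_lmul_quotient_pow_4918 p P b (β P) (hβ P P.2), map_pow]

end normResidue

end Fermat.Agent.S17.FND.E5486
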