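/-
S17 / FND leaf E (helper5486) — the local picture of a finite cover at a place.

`F'/F` a finite extension of fields over an algebraically closed field `K` of characteristic zero,
`v` a place of `F` of degree one.  `O_v` is a discrete valuation ring, its integral closure `B_v` in
`F'` is a Dedekind domain, finite free over `O_v`; the places of `F'` over `v` are the height one
primes of `B_v`.  `local_main` collects, for the finite set `T` of places over `v`:

* `∑_{w ∈ T} e(w|v) = [F' : F]`                           (`Ideal.sum_ramification_inertia`);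
* `∑_{w ∈ T} ord_w f = ord_v (N_{F'/F} f)`                (`Ideal.relNorm`);
* the VALUE of a norm: if `h` is regular at every `w ∈ T` with value `c w ∈ K` there
  (`h = c w` or `ord_w (h - c w) > 0`), then `N_{F'/F} h` has the value `∏_w (c w)^e(w|v)` at `v`
  (residue of a norm, `NormResidue.lean`).

The first two items and the place/prime dictionary follow helper1972's `S37/HI/L34.lean` (S37 is
not landed, so the argument is reproduced here in the namespace of this leaf); the third item is
new.  Imports: Mathlib, Prelude, landed S24 (`Fermat.Agent.S24.A564.*`).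
-/
import Fermat.Agent.S24.A564.RHAssembly
import Fermat.Prelude.Def_AlgebraicCurve_DivisorPushPull
import Fermat.Agent.S17.FND.E5486.NormResidue

set_option autoImplicit false
set_option linter.style.haveILetI false
set_option linter.overlappingInstances false
set_option linter.deprecated false
set_option linter.unusedSectionVars false

open AlgebraicCurve IntermediateField WithZero
open IsDedekindDomain (HeightOneSpectrum)

namespace Fermat.Agent.S17.FND.E5486

open Fermat.Agent.S24.A564

/-! ### Commutative algebra: multiplicities and the relative norm -/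

section RelNormMultiplicity

variable {R S : Type*} [CommRing R] [CommRing S] [Algebra R S]
  [IsDedekindDomain R] [IsDedekindDomain S] [Module.Finite R S] [Module.IsTorsionFree R S]

theorem multiplicity_prime_ideal_eq_ite {P Q : Ideal S} (hP : Prime P) (hQ : Prime Q)
    [DecidableEq (Ideal S)] :
    multiplicity P Q = if P = Q then 1 else 0 := by
  split_ifs with h
  · subst h
    exact multiplicity_self
  · rw [multiplicity_eq_zero, Ideal.dvd_iff_le]
    intro hle
    have hQmax : Q.IsMaximal := (Ideal.isPrime_of_prime hQ).isMaximal hQ.ne_zero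
    have hPne : P ≠ ⊤ := (Ideal.isPrime_of_prime hP).ne_top
    exact h (hQmax.eq_of_le hPne hle).symm

/-- If every nonzero prime of `S` lies over the maximal ideal `p` of `R` with residue degree one,
then the `p`-multiplicity of the relative norm of `I` is the sum of the multiplicities of the
primes over `p` in `I`. -/
theorem sum_multiplicity_eq_multiplicity_relNorm [PerfectField (FractionRing R)]
    (p : Ideal R) [p.IsMaximal] (hp0 : p ≠ ⊥)
    (hover : ∀ Q : Ideal S, Q.IsPrime → Q ≠ ⊥ → Q.LiesOver p)
    (hinert : ∀ Q : Ideal S, Q.IsPrime → Q.LiesOver p → p.inertiaDeg' Q = 1)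
    (I : Ideal S) (hI : I ≠ ⊥) :
    ∑ P ∈ IsDedekindDomain.primesOverFinset p S, multiplicity P I
      = multiplicity p (Ideal.relNorm R I) := by
  classical
  have hpprime : Prime p := Ideal.prime_of_isPrime hp0 inferInstance
  have hmem : ∀ P : Ideal S, P ∈ IsDedekindDomain.primesOverFinset p S ↔
      P.IsPrime ∧ P.LiesOver p := fun P =>
    IsDedekindDomain.mem_primesOverFinset_iff hp0 S
  have hPprime : ∀ P ∈ IsDedekindDomain.primesOverFinset p S, Prime P := by
    intro P hP
    have h1 := (hmem P).mp hP
    haveI := h1.2
    exact Ideal.prime_of_isPrime (Ideal.ne_bot_of_liesOver_of_ne_bot hp0 P) h1.1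
  induction I using UniqueFactorizationMonoid.induction_on_prime with
  | h₁ => exact absurd rfl hI
  | h₂ x hx =>
    have hx' : x = ⊤ := Ideal.isUnit_iff.mp hx
    subst hx'
    rw [Ideal.relNorm_top]
    have h0 : multiplicity p (⊤ : Ideal R) = 0 := by
      rw [multiplicity_eq_zero, Ideal.dvd_iff_le, top_le_iff]
      exact Ideal.IsPrime.ne_top inferInstance
    rw [h0]
    refine Finset.sum_eq_zero fun P hP => ?_
    rw [multiplicity_eq_zero, Ideal.dvd_iff_le, top_le_iff]
    exact ((hmem P).mp hP).1.ne_top
  | h₃ J Q hJ hQ ih =>
    have hQprime : Q.IsPrime := Ideal.isPrime_of_prime hQ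
    have hQ0 : Q ≠ ⊥ := hQ.ne_zero
    haveI hQover : Q.LiesOver p := hover Q hQprime hQ0
    have hQmem : Q ∈ IsDedekindDomain.primesOverFinset p S := (hmem Q).mpr ⟨hQprime, hQover⟩
    haveI hQmax : Q.IsMaximal := hQprime.isMaximal hQ0
    have hrel : Ideal.relNorm R Q = p := by
      rw [Ideal.relNorm_eq_pow_of_isMaximal Q p, ← Ideal.inertiaDeg'_eq_inertiaDeg p Q,
        hinert Q hQprime hQover, pow_one]
    have hJ' : J ≠ ⊥ := hJ
    have hrelJ : Ideal.relNorm R J ≠ 0 := by
      rw [Ne, Ideal.zero_eq_bot, Ideal.relNorm_eq_bot_iff]
      exact hJ'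
    rw [map_mul, hrel, multiplicity_mul hpprime
      (FiniteMultiplicity.of_prime_left hpprime (mul_ne_zero hpprime.ne_zero hrelJ)),
      multiplicity_self, ← ih hJ']
    have hsplit : ∀ P ∈ IsDedekindDomain.primesOverFinset p S,
        multiplicity P (Q * J) = (if P = Q then 1 else 0) + multiplicity P J := by
      intro P hP
      have hPp := hPprime P hP
      rw [multiplicity_mul hPp (FiniteMultiplicity.of_prime_left hPp (mul_ne_zero hQ.ne_zero hJ)),
        multiplicity_prime_ideal_eq_ite hPp hQ]
    rw [Finset.sum_congr rfl hsplit, Finset.sum_add_distrib, Finset.sum_ite_eq' _ Q, if_pos hQmem]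

end RelNormMultiplicity

/-! ### The local picture at a place -/

section Local

variable {K F F' : Type*} [Field K] [Field F] [Field F'] [Algebra K F] [Algebra K F']
  [Algebra F F'] [IsScalarTower K F F']

variable (v : Place K F)

/-- the constants act compatibly on `O_v` and `F'` (a LOCAL instance of this file) -/
theorem isScalarTower_const_valuationSubring :
    IsScalarTower K v.toValuationSubring F' :=
  IsScalarTower.of_algebraMap_eq fun a => by
    show algebraMap K F' a = algebraMap F F' (algebraMap K F a)
    rw [← IsScalarTower.algebraMap_apply]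

attribute [local instance] isScalarTower_const_valuationSubring

variable (F') in
/-- integral closure of `O_v` in `F'` -/
abbrev Bv : Subalgebra v.toValuationSubring F' := integralClosure v.toValuationSubring F'

/-- every element of `O_v` is congruent to a constant modulo the maximal ideal, if `deg v = 1`. -/
theorem exists_const_sub_mem (hdeg : v.deg = 1) (r : v.toValuationSubring) :
    ∃ c : K, r - algebraMap K v.toValuationSubring c ∈
      IsLocalRing.maximalIdeal v.toValuationSubring := by
  have h1 : (1 : v.ResidueField) ≠ 0 := one_ne_zero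
  obtain ⟨c, hc⟩ := exists_smul_eq_of_finrank_eq_one hdeg h1 (IsLocalRing.residue _ r)
  refine ⟨c, ?_⟩
  rw [← IsLocalRing.residue_eq_zero_iff, map_sub, ← hc, Algebra.smul_def, mul_one]
  exact sub_eq_zero.mpr rfl

/-- the order at `v` of an element of `O_v` is its multiplicity at the maximal ideal -/
theorem ord_coe_eq_multiplicity (x : v.toValuationSubring) (hx : x ≠ 0) :
    v.ord (x : F) =
      (multiplicity (IsLocalRing.maximalIdeal v.toValuationSubring) (Ideal.span {x}) : ℤ) := by
  rw [Place.ord, v.adicValuation_coe, v.heightOneSpectrum.intValuation_eq_exp_neg_multiplicity hx,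
    log_exp, neg_neg]
  rfl

/-- the order at the place of a height one prime is the multiplicity of that prime -/
theorem ofHeightOneSpectrum_ord_algebraMap {B : Type*} [CommRing B] [IsDedekindDomain B]
    [Algebra B F] [IsFractionRing B F] [Algebra K B] [IsScalarTower K B F]
    (Q : HeightOneSpectrum B) (b : B) (hb : b ≠ 0) :
    (Place.ofHeightOneSpectrum (K := K) (F := F) Q).ord (algebraMap B F b) =
      (multiplicity Q.asIdeal (Ideal.span {b}) : ℤ) := by
  rw [SO.Place_ofHeightOneSpectrum_ord, HeightOneSpectrum.valuation_of_algebraMap,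
    Q.intValuation_eq_exp_neg_multiplicity hb, log_exp, neg_neg]

/-- an element of a Dedekind domain with positive order at the place of a height one prime lies in
that prime -/
theorem mem_of_ofHeightOneSpectrum_ord_pos {B : Type*} [CommRing B] [IsDedekindDomain B]
    [Algebra B F] [IsFractionRing B F] [Algebra K B] [IsScalarTower K B F]
    (Q : HeightOneSpectrum B) (b : B)
    (hb : 0 < (Place.ofHeightOneSpectrum (K := K) (F := F) Q).ord (algebraMap B F b)) :
    b ∈ Q.asIdeal := by
  rcases eq_or_ne b 0 with rfl | hb0
  · exact Ideal.zero_mem _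
  rw [ofHeightOneSpectrum_ord_algebraMap Q b hb0] at hb
  have h1 : multiplicity Q.asIdeal (Ideal.span {b}) ≠ 0 := by
    intro h0
    rw [h0] at hb
    exact lt_irrefl _ hb
  rw [Ne, multiplicity_eq_zero, not_not, Ideal.dvd_iff_le] at h1
  exact h1 (Ideal.mem_span_singleton_self b)

/-- **Local main theorem.**  The set `T` of places of `F'` over `v` is finite, the ramification
indices sum to the degree, the orders of a function sum to the order of its norm, and the value
of a norm at `v` is the product of the values at the places over `v`, with multiplicities. -/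
theorem local_main [IsAlgClosed K] [CharZero K] [Algebra.IsIntegral F F'] [Module.Finite F F']
    (hdeg : v.deg = 1) :
    ∃ T : Finset (Place K F'), (∀ w : Place K F', w ∈ T ↔ w.restrict F = v) ∧
      ∑ w ∈ T, (w.ramificationIndex F : ℤ) = (Module.finrank F F' : ℤ) ∧
      (∀ f : F', f ≠ 0 → ∑ w ∈ T, w.ord f = v.ord (Algebra.norm F f)) ∧
      (∀ (h : F') (c : Place K F' → K), (∀ w ∈ T, h ∈ w.toValuationSubring) →
        (∀ w ∈ T, h = algebraMap K F' (c w) ∨ 0 < w.ord (h - algebraMap K F' (c w))) →
        Algebra.norm F h = algebraMap K F (∏ w ∈ T, c w ^ w.ramificationIndex F) ∨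
          0 < v.ord (Algebra.norm F h
            - algebraMap K F (∏ w ∈ T, c w ^ w.ramificationIndex F))) := by
  classical
  have : CharZero F := charZero_of_injective_algebraMap (algebraMap K F).injective
  have : Algebra.IsSeparable F F' := inferInstance
  have : CharZero v.toValuationSubring :=
    charZero_of_injective_algebraMap (algebraMap K v.toValuationSubring).injective
  let B := Bv F' v
  haveI : IsDedekindDomain B := IsIntegralClosure.isDedekindDomain v.toValuationSubring F F' B
  haveI : IsFractionRing B F' :=
    IsIntegralClosure.isFractionRing_of_finite_extension v.toValuationSubring F F' B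
  haveI : Module.Finite v.toValuationSubring B :=
    IsIntegralClosure.finite v.toValuationSubring F F' B
  let p : Ideal v.toValuationSubring := IsLocalRing.maximalIdeal v.toValuationSubring
  haveI hpmax : p.IsMaximal := IsLocalRing.maximalIdeal.isMaximal _
  have hinj : Function.Injective (algebraMap v.toValuationSubring B) := by
    intro a b hab
    have h2 : algebraMap F F' (a : F) = algebraMap F F' (b : F) := congrArg (algebraMap B F') hab
    exact Subtype.ext ((algebraMap F F').injective h2)
  haveI : FaithfulSMul v.toValuationSubring B :=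
    (faithfulSMul_iff_algebraMap_injective _ _).mpr hinj
  haveI : Module.Free v.toValuationSubring B := Module.free_of_finite_type_torsion_free'
  have hp0 : p ≠ ⊥ := IsDiscreteValuationRing.not_a_field _
  have hsum := Ideal.sum_ramification_inertia B F F' (p := p) hp0
  obtain ⟨π, hπ⟩ := IsDiscreteValuationRing.exists_irreducible v.toValuationSubring
  have hpπ : p = Ideal.span {π} := hπ.maximalIdeal_eq
  have hmemP : ∀ P ∈ IsDedekindDomain.primesOverFinset p B, P.IsPrime ∧ P.LiesOver p :=
    fun P hP => (IsDedekindDomain.mem_primesOverFinset_iff hp0 _).mp hP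
  have hPne : ∀ P ∈ IsDedekindDomain.primesOverFinset p B, P ≠ ⊥ := fun P hP =>
    haveI := (hmemP P hP).2
    Ideal.ne_bot_of_liesOver_of_ne_bot hp0 P
  -- every nonzero prime of `B` lies over `p`
  have hover : ∀ Q : Ideal B, Q.IsPrime → Q ≠ ⊥ → Q.LiesOver p := by
    intro Q hQ hQ0
    have h1 : (Q.under v.toValuationSubring).IsPrime := Ideal.IsPrime.under _ Q
    have h2 : Q.under v.toValuationSubring ≠ ⊥ := Ideal.under_ne_bot v.toValuationSubring hQ0
    have h3 : (Q.under v.toValuationSubring).IsMaximal := h1.isMaximal h2
    exact ⟨(IsLocalRing.eq_maximalIdeal h3).symm⟩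
  have hinert : ∀ Q : Ideal B, Q.IsPrime → Q.LiesOver p → p.inertiaDeg' Q = 1 :=
    fun Q hQ hQp =>
      SO.inertiaDeg'_eq_one_of_isAlgClosed (K := K) p Q (exists_const_sub_mem v hdeg)
  let Φ : {P // P ∈ IsDedekindDomain.primesOverFinset p B} → Place K F' := fun P =>
    Place.ofHeightOneSpectrum (K := K) ⟨P.1, (hmemP P.1 P.2).1, hPne P.1 P.2⟩
  have hΦinj : Function.Injective Φ := by
    intro P P' h
    have := SO.Place_ofHeightOneSpectrum_injective (K := K) (F := F') h
    exact Subtype.ext (congrArg HeightOneSpectrum.asIdeal this)
  have hΦres : ∀ P, (Φ P).restrict F = v := by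
    intro P
    apply Place.ext
    symm
    refine ValuationSubring.eq_of_le_of_ne_top _ ?_ ((Φ P).restrict F).ne_top'
    intro x hx
    show algebraMap F F' x ∈ ((HeightOneSpectrum.valuation F' _).valuationSubring)
    rw [Valuation.mem_valuationSubring_iff]
    exact HeightOneSpectrum.valuation_le_one _ (algebraMap v.toValuationSubring B ⟨x, hx⟩)
  have hπ0 : (π : F) ≠ 0 := fun h => hπ.ne_zero (Subtype.ext h)
  have hπB : algebraMap v.toValuationSubring B π ≠ 0 := by
    intro h
    have h2 : algebraMap F F' (π : F) = 0 := congrArg (algebraMap B F') h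
    exact hπ0 (by simpa using h2)
  have hord : ∀ P : {P // P ∈ IsDedekindDomain.primesOverFinset p B},
      ((Φ P).ramificationIndex F : ℤ) = (p.ramificationIdx' P.1 : ℤ) := by
    intro P
    have h1 := (Φ P).ord_restrict (F := F) (π : F)
    rw [hΦres P, v.ord_coe_irreducible hπ, mul_one] at h1
    rw [← h1]
    show (Place.ofHeightOneSpectrum (K := K) (F := F') _).ord _ = _
    rw [SO.Place_ofHeightOneSpectrum_ord]
    have h2 := SO.ramificationIdx'_eq_neg_log_valuation (F := F') π
      ⟨P.1, (hmemP P.1 P.2).1, hPne P.1 P.2⟩ hπB
    rw [← hpπ] at h2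
    exact h2
  refine ⟨(IsDedekindDomain.primesOverFinset p B).attach.image Φ, ?_, ?_, ?_, ?_⟩
  · -- the fibre
    intro w
    rw [Finset.mem_image]
    constructor
    · rintro ⟨P, -, rfl⟩
      exact hΦres P
    · intro hw
      have hO : ∀ x : v.toValuationSubring,
          algebraMap v.toValuationSubring F' x ∈ w.toValuationSubring := by
        intro x
        have h2 : (x : F) ∈ (w.restrict F).toValuationSubring := hw ▸ x.2
        exact h2
      have hB : ∀ b : B, algebraMap B F' b ∈ w.toValuationSubring := by
        intro b
        obtain ⟨q, hq, hqb⟩ := b.2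
        let g : v.toValuationSubring →+* w.toValuationSubring :=
          (algebraMap v.toValuationSubring F').codRestrict w.toValuationSubring.toSubring hO
        have hint : IsIntegral w.toValuationSubring (b : F') := by
          refine ⟨q.map g, hq.map g, ?_⟩
          rw [Polynomial.eval₂_map]
          exact hqb
        obtain ⟨y, hy⟩ :=
          (IsIntegrallyClosed.isIntegral_iff (R := w.toValuationSubring) (K := F')).mp hint
        rw [show algebraMap B F' b = (b : F') from rfl, ← hy]
        exact y.2
      obtain ⟨Q, hQ⟩ := SO.Place_exists_heightOneSpectrum_of_le w hB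
      haveI hQover : Q.asIdeal.LiesOver p := hover Q.asIdeal Q.isPrime Q.ne_bot
      have hmem : Q.asIdeal ∈ IsDedekindDomain.primesOverFinset p B :=
        (IsDedekindDomain.mem_primesOverFinset_iff hp0 _).mpr ⟨Q.isPrime, hQover⟩
      exact ⟨⟨Q.asIdeal, hmem⟩, Finset.mem_attach _ _, hQ⟩
  · -- fundamental identity
    rw [Finset.sum_image (fun x _ y _ h => hΦinj h)]
    have h1 : ∑ P ∈ (IsDedekindDomain.primesOverFinset p B).attach,
          ((Φ P).ramificationIndex F : ℤ)
        = ∑ P ∈ (IsDedekindDomain.primesOverFinset p B).attach,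
            ((p.ramificationIdx' P.1 * p.inertiaDeg' P.1 : ℕ) : ℤ) :=
      Finset.sum_congr rfl fun P _ => by
        rw [hord, hinert P.1 (hmemP P.1 P.2).1 (hmemP P.1 P.2).2, mul_one]
    rw [h1, Finset.sum_attach (IsDedekindDomain.primesOverFinset p B)
      (fun P => ((p.ramificationIdx' P * p.inertiaDeg' P : ℕ) : ℤ)), ← Nat.cast_sum, hsum]
  · -- norm formula
    -- first for integral elements
    have hint : ∀ b : B, b ≠ 0 →
        ∑ w ∈ (IsDedekindDomain.primesOverFinset p B).attach.image Φ, w.ord (algebraMap B F' b)
          = v.ord (Algebra.norm F (algebraMap B F' b)) := by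
      intro b hb
      rw [Finset.sum_image (fun x _ y _ h => hΦinj h)]
      have h1 : ∑ P ∈ (IsDedekindDomain.primesOverFinset p B).attach,
            (Φ P).ord (algebraMap B F' b)
          = ∑ P ∈ (IsDedekindDomain.primesOverFinset p B).attach,
              ((multiplicity P.1 (Ideal.span {b}) : ℕ) : ℤ) :=
        Finset.sum_congr rfl fun P _ =>
          ofHeightOneSpectrum_ord_algebraMap (K := K) (F := F')
            ⟨P.1, (hmemP P.1 P.2).1, hPne P.1 P.2⟩ b hb
      have hspan : Ideal.span {b} ≠ ⊥ := by
        rw [Ne, Ideal.span_singleton_eq_bot]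
        exact hb
      rw [h1, Finset.sum_attach (IsDedekindDomain.primesOverFinset p B)
        (fun P => ((multiplicity P (Ideal.span {b}) : ℕ) : ℤ)), ← Nat.cast_sum,
        sum_multiplicity_eq_multiplicity_relNorm p hp0 hover hinert _ hspan,
        Ideal.relNorm_singleton,
        ← Algebra.algebraMap_intNorm (A := v.toValuationSubring) (K := F) (L := F') (B := B) b]
      have hn0 : Algebra.intNorm v.toValuationSubring B b ≠ 0 := by
        rw [Ne, Algebra.intNorm_eq_zero]
        exact hb
      exact (ord_coe_eq_multiplicity v _ hn0).symm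
    intro f hf
    obtain ⟨b, d, hd, hfbd⟩ := IsFractionRing.div_surjective (A := B) f
    have hd0 : d ≠ 0 := nonZeroDivisors.ne_zero hd
    have hdF : algebraMap B F' d ≠ 0 := by
      simpa using hd0
    have hmul : f * algebraMap B F' d = algebraMap B F' b := by
      rw [← hfbd, div_mul_cancel₀ _ hdF]
    have hbF : algebraMap B F' b ≠ 0 := by
      rw [← hmul]
      exact mul_ne_zero hf hdF
    have hb0 : b ≠ 0 := by
      rintro rfl
      exact hbF (map_zero _)
    have hw : ∀ w : Place K F',
        w.ord f = w.ord (algebraMap B F' b) - w.ord (algebraMap B F' d) := by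
      intro w
      rw [← hmul, w.ord_mul hf hdF]
      ring
    have hN : v.ord (Algebra.norm F f)
        = v.ord (Algebra.norm F (algebraMap B F' b))
          - v.ord (Algebra.norm F (algebraMap B F' d)) := by
      rw [← hmul, map_mul, v.ord_mul (Algebra.norm_ne_zero_iff.mpr hf)
        (Algebra.norm_ne_zero_iff.mpr hdF)]
      ring
    rw [Finset.sum_congr rfl fun w _ => hw w, Finset.sum_sub_distrib, hint b hb0, hint d hd0, hN]
  · -- value of a norm
    intro h c hreg hval
    -- `h` is integral over `O_v`
    have hhB : h ∈ (algebraMap B F').range := by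
      refine HeightOneSpectrum.mem_integers_of_valuation_le_one F' h fun Q => ?_
      haveI hQover : Q.asIdeal.LiesOver p := hover Q.asIdeal Q.isPrime Q.ne_bot
      have hmem : Q.asIdeal ∈ IsDedekindDomain.primesOverFinset p B :=
        (IsDedekindDomain.mem_primesOverFinset_iff hp0 _).mpr ⟨Q.isPrime, hQover⟩
      have h1 := hreg (Φ ⟨Q.asIdeal, hmem⟩)
        (Finset.mem_image.mpr ⟨⟨Q.asIdeal, hmem⟩, Finset.mem_attach _ _, rfl⟩)
      have h2 : h ∈ (Place.ofHeightOneSpectrum (K := K) (F := F') Q).toValuationSubring := h1
      rw [Place.ofHeightOneSpectrum_toValuationSubring, Valuation.mem_valuationSubring_iff] at h2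
      exact h2
    obtain ⟨b, rfl⟩ := hhB
    -- the constants
    let β : Ideal B → v.toValuationSubring := fun Q =>
      algebraMap K v.toValuationSubring
        (if hQ : Q ∈ IsDedekindDomain.primesOverFinset p B then c (Φ ⟨Q, hQ⟩) else 0)
    have hpmap : Ideal.map (algebraMap v.toValuationSubring B) p ≠ ⊥ := by
      rw [hpπ, Ideal.map_span, Set.image_singleton, Ne, Ideal.span_singleton_eq_bot]
      exact hπB
    have hβ : ∀ Q ∈ IsDedekindDomain.primesOverFinset p B,
        b - algebraMap v.toValuationSubring B (β Q) ∈ Q := by
      intro Q hQ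
      have hβQ : β Q = algebraMap K v.toValuationSubring (c (Φ ⟨Q, hQ⟩)) := by
        show algebraMap K v.toValuationSubring _ = _
        rw [dif_pos hQ]
      have hcoe : algebraMap B F' (b - algebraMap v.toValuationSubring B (β Q))
          = algebraMap B F' b - algebraMap K F' (c (Φ ⟨Q, hQ⟩)) := by
        rw [map_sub, hβQ, ← IsScalarTower.algebraMap_apply v.toValuationSubring B F',
          ← IsScalarTower.algebraMap_apply K v.toValuationSubring F']
      rcases hval (Φ ⟨Q, hQ⟩)
        (Finset.mem_image.mpr ⟨⟨Q, hQ⟩, Finset.mem_attach _ _, rfl⟩) with h0 | hpos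
      · have h3 : algebraMap B F' (b - algebraMap v.toValuationSubring B (β Q)) = 0 := by
          rw [hcoe, h0, sub_self]
        have h4 : b - algebraMap v.toValuationSubring B (β Q) = 0 :=
          (IsFractionRing.injective B F') (by rw [h3, map_zero])
        rw [h4]
        exact Ideal.zero_mem _
      · rw [← hcoe] at hpos
        exact mem_of_ofHeightOneSpectrum_ord_pos (K := K) (F := F')
          ⟨Q, (hmemP Q hQ).1, hPne Q hQ⟩ _ hpos
    have hres := norm_sub_prod_mem_4918 p hpmap b β hβ
    -- rewrite the product
    have hprod : ∏ P ∈ IsDedekindDomain.primesOverFinset p B,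
          β P ^ (p.ramificationIdx' P * p.inertiaDeg' P)
        = algebraMap K v.toValuationSubring
            (∏ w ∈ (IsDedekindDomain.primesOverFinset p B).attach.image Φ,
              c w ^ w.ramificationIndex F) := by
      rw [Finset.prod_image (fun x _ y _ h => hΦinj h), map_prod,
        ← Finset.prod_attach (IsDedekindDomain.primesOverFinset p B)]
      refine Finset.prod_congr rfl fun P _ => ?_
      have hβP : β P.1 = algebraMap K v.toValuationSubring (c (Φ P)) := by
        show algebraMap K v.toValuationSubring _ = _
        rw [dif_pos P.2]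
      have he : (Φ P).ramificationIndex F = p.ramificationIdx' P.1 := by
        exact_mod_cast hord P
      rw [hβP, hinert P.1 (hmemP P.1 P.2).1 (hmemP P.1 P.2).2, mul_one, map_pow, he]
    rw [show (∏ P ∈ (UniqueFactorizationMonoid.factors
          (Ideal.map (algebraMap v.toValuationSubring B) p)).toFinset,
          β P ^ (p.ramificationIdx' P * p.inertiaDeg' P))
        = ∏ P ∈ IsDedekindDomain.primesOverFinset p B,
          β P ^ (p.ramificationIdx' P * p.inertiaDeg' P) from rfl, hprod] at hres
    set C : K := ∏ w ∈ (IsDedekindDomain.primesOverFinset p B).attach.image Φ,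
      c w ^ w.ramificationIndex F with hC
    set d : v.toValuationSubring :=
      Algebra.norm v.toValuationSubring b - algebraMap K v.toValuationSubring C with hd
    have hdF : (d : F) = Algebra.norm F (algebraMap B F' b) - algebraMap K F C := by
      rw [← Algebra.algebraMap_intNorm (A := v.toValuationSubring) (K := F) (L := F') (B := B) b,
        Algebra.intNorm_eq_norm]
      rfl
    rcases eq_or_ne d 0 with hd0 | hd0
    · left
      have : (d : F) = 0 := by rw [hd0]; rfl
      rw [hdF, sub_eq_zero] at this
      exact this
    · right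
      rw [← hdF]
      exact (LD.ord_pos_iff_mem_maximalIdeal v d hd0).mpr hres

end Local

end Fermat.Agent.S17.FND.E5486
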